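/-
Cluster E' (Mazur), S12 side (deputy architect: helper60).  Basic definitions of the chain argument
`S12 ⇐ S15 + S14 + chain E_k`.  See NOTES/blueprint-E-S12.md.
-/
import Mathlib
import Fermat.Prelude.Def_FLTPrelim_FreyPackage
import Fermat.Prelude.Def_FLTPrelim_GaloisRep
import Fermat.Prelude.Def_FLTPrelim_Ramification
import Fermat.Prelude.Def_FLTPrelim_CofixedLine
import Fermat.Prelude.Def_EllipticCurve_ZeroComponentAt
import Fermat.Agent.MUL.Orig.E.S12.VeluSpec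

set_option autoImplicit false

open WeierstrassCurve WeierstrassCurve.Affine WeierstrassCurve.Affine.Point

namespace Fermat.Agent.ES12

/-- `Q̄`. -/
abbrev Qb : Type := AlgebraicClosure ℚ

/-- `G_ℚ`. -/
abbrev GQ : Type := Qb ≃ₐ[ℚ] Qb

/-- The integral Frey-type model `y² + x y = x³ + ((B − 1 − A)/4) x² − (A B / 16) x`
(isomorphic over `ℚ` to `Y² = X (X − A) (X + B)` via `X = 4 x`, `Y = 8 y + 4 x`). -/
def freyLike (A B : ℤ) : WeierstrassCurve ℤ where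
  a₁ := 1
  a₂ := (B - 1 - A) / 4
  a₃ := 0
  a₄ := -(A * B) / 16
  a₆ := 0

/-- A Frey pair: `A ≡ 3 mod 4`, `32 ∣ B`, `gcd (A, B) = 1`, `A B (A + B) ≠ 0`. -/
structure IsFreyPair (A B : ℤ) : Prop where
  hA : A % 4 = 3
  hB : (32 : ℤ) ∣ B
  hcop : IsCoprime A B
  hA0 : A ≠ 0
  hB0 : B ≠ 0
  hC0 : A + B ≠ 0

/-- `D (A, B) = A (B / 16) (A + B)`; for a Frey pair `Δ (freyLike A B) = D ^ 2`,
`c₄ = A² + A B + B²`, and `D`, `c₄` are coprime. -/
def freyD (A B : ℤ) : ℤ := A * (B / 16) * (A + B)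

/-- The points over `Q̄` of an integral Weierstrass model. -/
abbrev Pts (W : WeierstrassCurve ℤ) : Type :=
  ((W.map (Int.castRingHom ℚ))⁄Qb).Point

/-- The statement of Mazur's key step (= the frozen S15, verbatim) as a `Prop`. -/
def MazurStep : Prop :=
  ∀ {p : ℕ} (_ : p.Prime) (_ : p ∉ ({2, 3, 5, 7, 13} : Finset ℕ))
    (W : WeierstrassCurve ℤ) (_ : W.Δ ≠ 0)
    (Q : ((W.map (Int.castRingHom ℚ))⁄(AlgebraicClosure ℚ)).Point)
    (_ : ∀ σ : AlgebraicClosure ℚ ≃ₐ[ℚ] AlgebraicClosure ℚ, σ • Q = Q)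
    (_ : addOrderOf Q = p)
    (_ : (2 : ℤ) ∣ W.Δ) (_ : ¬ (2 : ℤ) ∣ W.c₄)
    (_ : ∀ A : ValuationSubring (AlgebraicClosure ℚ), A.LiesOverPrime 2 →
      ¬ W.InZeroComponentAt A Q)
    (_ : (3 : ℤ) ∣ W.Δ) (_ : ¬ (3 : ℤ) ∣ W.c₄)
    (_ : ∀ A : ValuationSubring (AlgebraicClosure ℚ), A.LiesOverPrime 3 →
      ¬ W.InZeroComponentAt A Q)
    {ℓ : ℕ} (_ : ℓ.Prime) (_ : ℓ ≠ p) (_ : (ℓ : ℤ) ∣ W.Δ) (_ : ¬ (ℓ : ℤ) ∣ W.c₄)
    (A : ValuationSubring (AlgebraicClosure ℚ)) (_ : A.LiesOverPrime ℓ),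
    ¬ W.InZeroComponentAt A Q

/-- The cofixed-line property of the integral model `W` at `p` (the shape of S12). -/
def HasCofixedLine (W : WeierstrassCurve ℤ) (p : ℕ) : Prop :=
  HasGaloisStableCofixedLine (K := AlgebraicClosure ℚ) ℚ (W.map (Int.castRingHom ℚ)) p

/-- The state of the chain: a Frey pair whose curve has a cofixed line at `p`. -/
def ChainState (p : ℕ) (A B : ℤ) : Prop :=
  IsFreyPair A B ∧ HasCofixedLine (freyLike A B) p

/-- **(STEP)** the chain step at `p`: from a chain state `(A, B)` to a chain state `(A', B')` all of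
whose bad primes `ℓ` are bad for `(A, B)`, with `v_ℓ (D') = p · v_ℓ (D)`. -/
def ChainStep (p : ℕ) : Prop :=
  ∀ A B : ℤ, ChainState p A B → ∃ A' B' : ℤ, ChainState p A' B' ∧
    ∀ ℓ : ℕ, ℓ.Prime → (ℓ : ℤ) ∣ freyD A' B' →
      padicValInt ℓ (freyD A' B') = p * padicValInt ℓ (freyD A B)

/-- **(X')** the endgame: no chain step can exist (it would produce an infinite chain). -/
def NoChain (p : ℕ) : Prop :=
  ∀ A B : ℤ, ChainState p A B → ¬ ChainStep p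

end Fermat.Agent.ES12
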