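/-
Cluster E' (Mazur), S12 side (deputy architect: helper60).
EXACT STATEMENTS (as `Prop`s, no proofs here) of the leaves used by the chain step
`Fermat/Agent/E/S12/Step.lean`.  Owners prove `theorem xxx : XxxStatement ..` in their own files.
See NOTES/blueprint-E-S12.md.
-/
import Fermat.Agent.MUL.Orig.E.S12.Defs
import Fermat.Agent.MUL.Orig.E.S12.VeluSpec

set_option autoImplicit false

open WeierstrassCurve WeierstrassCurve.Affine WeierstrassCurve.Affine.Point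

namespace Fermat.Agent.ES12

open Fermat.Agent.EV

/-- `(W.map (ℤ → ℚ))⁄Q̄` as an affine curve over `Q̄`. -/
noncomputable abbrev CurveQb (W : WeierstrassCurve ℤ) : Affine Qb :=
  ((W.map (Int.castRingHom ℚ))⁄Qb)

/-- **(QUOT)** quotient of a Frey-type curve by a Galois-stable subgroup of order `p`, put back in
Frey form.  (Assembly of V1, V1x, V1Q, L0, LEG, TW; see the blueprint, steps 1–4.) -/
def QuotStatement (p : ℕ) : Prop :=
  ∀ A B : ℤ, IsFreyPair A B →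
    ∀ N₀ : AddSubgroup (Pts (freyLike A B)), Nat.card N₀ = p →
      (∀ σ : GQ, ∀ P ∈ N₀, σ • P ∈ N₀) →
      ∃ A' B' : ℤ, IsFreyPair A' B' ∧
        ∃ φ : Pts (freyLike A B) →+ Pts (freyLike A' B'),
          Function.Surjective φ ∧ φ.ker = N₀ ∧ (∀ (σ : GQ) (P : Pts (freyLike A B)),
            φ (σ • P) = σ • φ P) ∧
          ∃ n d : Polynomial Qb, ∀ (x y : Qb) (h : (CurveQb (freyLike A B)).Nonsingular x y),
            (Point.some x y h : Pts (freyLike A B)) ∉ N₀ →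
              d.eval x ≠ 0 ∧ ∃ (y' : Qb) (h' : (CurveQb (freyLike A' B')).Nonsingular
                (n.eval x / d.eval x) y'), φ (.some x y h) = .some (n.eval x / d.eval x) y' h'

/-- **(DUAL)** = (V2): if `φ : E → F` is a surjective homomorphism with kernel of order `p` and
rational `x`-map, and `Q' = φ P₀` with `p • P₀ = 0`, `P₀ ∉ ker φ`, then the Vélu quotient of `F` by
`⟨Q'⟩` has the same `j`-invariant as `E` (cross-multiplied: `c₄''³ Δ_E = c₄_E³ Δ''`). -/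
def DualStatement (p : ℕ) : Prop :=
  ∀ (W F : WeierstrassCurve ℤ), W.Δ ≠ 0 → F.Δ ≠ 0 →
    ∀ φ : Pts W →+ Pts F, Function.Surjective φ → Nat.card φ.ker = p →
      (∃ n d : Polynomial Qb, ∀ (x y : Qb) (h : (CurveQb W).Nonsingular x y),
        (Point.some x y h : Pts W) ∉ φ.ker →
          d.eval x ≠ 0 ∧ ∃ (y' : Qb) (h' : (CurveQb F).Nonsingular (n.eval x / d.eval x) y'),
            φ (.some x y h) = .some (n.eval x / d.eval x) y' h') →
      ∀ P₀ : Pts W, p • P₀ = 0 → φ P₀ ≠ 0 →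
        (veluCurve (CurveQb F) (AddSubgroup.zmultiples (φ P₀) : Set (Pts F))).c₄ ^ 3
            * ((W.Δ : ℤ) : Qb)
          = ((W.c₄ : ℤ) : Qb) ^ 3
            * (veluCurve (CurveQb F) (AddSubgroup.zmultiples (φ P₀) : Set (Pts F))).Δ

/-- **(L1)** the valuation of the discriminant of the quotient by a line that meets the zero
component trivially, at a multiplicative prime (`ℓ = p`, `ℓ = 2, 3` allowed). -/
def L1Statement (p : ℕ) : Prop :=
  ∀ (W : WeierstrassCurve ℤ), W.Δ ≠ 0 → ∀ ℓ : ℕ, ℓ.Prime → (ℓ : ℤ) ∣ W.Δ → ¬ (ℓ : ℤ) ∣ W.c₄ →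
    ∀ A : ValuationSubring Qb, A.LiesOverPrime ℓ →
      ∀ Q : Pts W, addOrderOf Q = p → ¬ W.InZeroComponentAt A Q →
        A.valuation (veluCurve (CurveQb W) (AddSubgroup.zmultiples Q : Set (Pts W))).c₄ = 1 ∧
        A.valuation (veluCurve (CurveQb W) (AddSubgroup.zmultiples Q : Set (Pts W))).Δ ^ p
          = A.valuation ((W.Δ : ℤ) : Qb)

/-- **(L2)** a rational point of prime order `p ≥ 11` is not in the zero component at a
multiplicative prime `ℓ ∈ {2, 3}`. -/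
def L2Statement (p : ℕ) : Prop :=
  ∀ (W : WeierstrassCurve ℤ) (ℓ : ℕ), (ℓ = 2 ∨ ℓ = 3) → (ℓ : ℤ) ∣ W.Δ → ¬ (ℓ : ℤ) ∣ W.c₄ →
    ∀ Q : Pts W, (∀ σ : GQ, σ • Q = Q) → addOrderOf Q = p →
      ∀ A : ValuationSubring Qb, A.LiesOverPrime ℓ → ¬ W.InZeroComponentAt A Q

/-- **(G3)** an integral model with a rational point of prime order `p ≥ 11` has bad reduction
at `3`. -/
def G3Statement (p : ℕ) : Prop :=
  ∀ (W : WeierstrassCurve ℤ), W.Δ ≠ 0 →
    ∀ Q : Pts W, (∀ σ : GQ, σ • Q = Q) → addOrderOf Q = p → (3 : ℤ) ∣ W.Δ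

/-- **(L2p)** a rational point of order `p` is not in the zero component at `p` (multiplicative
reduction at `p`). -/
def L2pStatement (p : ℕ) : Prop :=
  ∀ (W : WeierstrassCurve ℤ), (p : ℤ) ∣ W.Δ → ¬ (p : ℤ) ∣ W.c₄ →
    ∀ Q : Pts W, (∀ σ : GQ, σ • Q = Q) → addOrderOf Q = p →
      ∀ A : ValuationSubring Qb, A.LiesOverPrime p → ¬ W.InZeroComponentAt A Q

/-- **(L3)** if the rational point `Q` of order `p` misses the zero component at the bad prime
`ℓ ≠ p` (or `ℓ` is good), inertia at `ℓ` acts trivially on the `p`-torsion. -/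
def L3Statement (p : ℕ) : Prop :=
  ∀ (W : WeierstrassCurve ℤ), W.Δ ≠ 0 →
    ∀ Q : Pts W, (∀ σ : GQ, σ • Q = Q) → addOrderOf Q = p →
      ∀ ℓ : ℕ, ℓ.Prime → ℓ ≠ p →
        ((ℓ : ℤ) ∣ W.Δ → ¬ (ℓ : ℤ) ∣ W.c₄ ∧
          ∀ A : ValuationSubring Qb, A.LiesOverPrime ℓ → ¬ W.InZeroComponentAt A Q) →
        ∀ A : ValuationSubring Qb, A.LiesOverPrime ℓ →
          ∀ σ ∈ A.inertiaSubgroupIn ℚ, ∀ P : Pts W, p • P = 0 → σ • P = P

/-- **(ADM)** a semistable-at-`p` integral model with a rational point of order `p` whose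
`p`-torsion is unramified outside `p` has a cofixed line (S14 + E-P + det = cyclotomic). -/
def AdmStatement (p : ℕ) : Prop :=
  ∀ (W : WeierstrassCurve ℤ), W.Δ ≠ 0 → ((p : ℤ) ∣ W.Δ → ¬ (p : ℤ) ∣ W.c₄) →
    ∀ Q : Pts W, (∀ σ : GQ, σ • Q = Q) → addOrderOf Q = p →
      (∀ ℓ : ℕ, ℓ.Prime → ℓ ≠ p → ∀ A : ValuationSubring Qb, A.LiesOverPrime ℓ →
        ∀ σ ∈ A.inertiaSubgroupIn ℚ, ∀ P : Pts W, p • P = 0 → σ • P = P) →
      HasCofixedLine W p

end Fermat.Agent.ES12
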